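import Fermat.Agent.S18.H845.ConstExt
import Fermat.Agent.A2.Spec

/-!
# RIBET row 38, WALL-p, (S4) CORE-OUT, WILD half: HOR-DESC (helper889)

Horizontal `m`-divisibility descends along a constant-field extension.

Setting (the one of `H704.CoreOut.WildFrame`): `L₁ ⊆ L₂` fields, `L₁` an algebra over the field of
constants `E₁` (characteristic `0`), `L₂ = L₁(elements algebraic over E₁)`; `K₂ ⊆ L₂` a field with
constants `E₂`, all algebraic over `E₁`.  If `f₂ ∈ K₂` is horizontally `m`-divisible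
(`A2.DivisibleDiv E₂ m f₂`) and `f₂ = lc · f' · b ^ m` in `L₂` with `lc ∈ E₂ˣ`, `f' ∈ L₁`,
`b ∈ L₂ˣ`, then `f'` is horizontally `m`-divisible on `L₁` (`A2.DivisibleDiv E₁ m f'`).

Proof: a discrete valuation ring `V ⊇ E₁` of `L₁` extends to a discrete valuation ring `B` of `L₂`
with the SAME uniformiser (`S18.H845.exists_dvr_extension`: constant field extensions are
unramified); `B ∩ K₂` is `K₂` or a discrete valuation ring containing `E₂`; count valuations.
-/

set_option autoImplicit false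
set_option linter.unusedSectionVars false
set_option linter.style.haveILetI false

namespace Fermat.Agent.Ribet.H889

open Fermat.Agent.A2 (DivisibleDiv)
open Fermat.Agent.S18.H845

/-! ## Restriction of a discrete valuation to a subfield -/

section Restrict

variable {K L : Type*} [Field K] [Field L] [Algebra K L]

/-- The valuation of `B.comap` is `≤ 1` iff the valuation of `B` is. -/
theorem comap_val_le_one_iff_h889 (B : ValuationSubring L) (x : K) :
    (B.comap (algebraMap K L)).valuation x ≤ 1 ↔ B.valuation (algebraMap K L x) ≤ 1 := by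
  rw [ValuationSubring.valuation_le_one_iff, ValuationSubring.valuation_le_one_iff,
    ValuationSubring.mem_comap]

/-- The valuation of `B.comap` is `1` iff the valuation of `B` is. -/
theorem comap_val_eq_one_iff_h889 (B : ValuationSubring L) (x : K) :
    (B.comap (algebraMap K L)).valuation x = 1 ↔ B.valuation (algebraMap K L x) = 1 := by
  by_cases hx : x = 0
  · subst hx
    simp
  have hx' : algebraMap K L x ≠ 0 := fun h => hx ((map_eq_zero (algebraMap K L)).mp h)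
  have h1 := comap_val_le_one_iff_h889 B x
  have h2 := comap_val_le_one_iff_h889 B x⁻¹
  simp only [map_inv₀] at h2
  have hpos : 0 < (B.comap (algebraMap K L)).valuation x :=
    zero_lt_iff.mpr ((Valuation.ne_zero_iff _).mpr hx)
  have hpos' : 0 < B.valuation (algebraMap K L x) :=
    zero_lt_iff.mpr ((Valuation.ne_zero_iff _).mpr hx')
  rw [inv_le_one₀ hpos, inv_le_one₀ hpos'] at h2
  constructor
  · intro h
    exact le_antisymm (h1.mp h.le) (h2.mp h.ge)
  · intro h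
    exact le_antisymm (h1.mpr h.le) (h2.mpr h.ge)

/-- **Restriction of a discrete valuation.**  If every nonzero value of `B` is an integral power
of the value of `ϖ`, then either every nonzero element of `K` is a unit of `B`, or `B ∩ K` is a
discrete valuation ring. -/
theorem comap_trivial_or_dvr_h889 (B : ValuationSubring L) {ϖ : L} (hϖ0 : ϖ ≠ 0)
    (hϖ : B.valuation ϖ < 1)
    (hval : ∀ f : L, f ≠ 0 → ∃ k : ℤ, B.valuation f = B.valuation ϖ ^ k) :
    (∀ x : K, x ≠ 0 → B.valuation (algebraMap K L x) = 1) ∨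
      IsDiscreteValuationRing (B.comap (algebraMap K L)) := by
  classical
  have hpos : 0 < B.valuation ϖ := zero_lt_iff.mpr ((Valuation.ne_zero_iff _).mpr hϖ0)
  have hne : B.valuation ϖ ≠ 0 := hpos.ne'
  by_cases hS : ∃ d : ℕ, 0 < d ∧ ∃ x : K, x ≠ 0 ∧
      B.valuation (algebraMap K L x) = B.valuation ϖ ^ (d : ℤ)
  · right
    -- minimal positive exponent
    let d := Nat.find hS
    obtain ⟨hd0, t, ht0, ht⟩ := Nat.find_spec hS
    have hmin : ∀ r : ℕ, r < d → ¬ (0 < r ∧ ∃ x : K, x ≠ 0 ∧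
        B.valuation (algebraMap K L x) = B.valuation ϖ ^ (r : ℤ)) := fun r hr => Nat.find_min hS hr
    have ht' : B.valuation (algebraMap K L t) = B.valuation ϖ ^ (d : ℤ) := ht
    have hd0' : 0 < d := hd0
    have htL0 : algebraMap K L t ≠ 0 := fun h => ht0 ((map_eq_zero (algebraMap K L)).mp h)
    -- every value on `K` is a power of the value of `t`
    have key : ∀ x : K, x ≠ 0 → ∃ j : ℤ,
        B.valuation (algebraMap K L x) = B.valuation (algebraMap K L t) ^ j := by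
      intro x hx
      have hxL0 : algebraMap K L x ≠ 0 := fun h => hx ((map_eq_zero (algebraMap K L)).mp h)
      obtain ⟨k, hk⟩ := hval _ hxL0
      have hdZ : (d : ℤ) ≠ 0 := by exact_mod_cast hd0'.ne'
      have hr0 : 0 ≤ k % (d : ℤ) := Int.emod_nonneg k hdZ
      have hrd : k % (d : ℤ) < d := Int.emod_lt_of_pos k (by exact_mod_cast hd0')
      obtain ⟨r, hr⟩ : ∃ r : ℕ, k % (d : ℤ) = r := ⟨(k % (d : ℤ)).toNat, by omega⟩
      have hkdecomp : k = (d : ℤ) * (k / (d : ℤ)) + r := by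
        rw [← hr]; exact (Int.mul_ediv_add_emod k d).symm
      -- the element `x / t ^ (k / d)` has exponent `r`
      have hy0 : x * (t ^ (k / (d : ℤ)))⁻¹ ≠ 0 :=
        mul_ne_zero hx (inv_ne_zero (zpow_ne_zero _ ht0))
      have hyv : B.valuation (algebraMap K L (x * (t ^ (k / (d : ℤ)))⁻¹)) =
          B.valuation ϖ ^ (r : ℤ) := by
        rw [map_mul, map_inv₀, map_zpow₀, map_mul, map_inv₀, map_zpow₀, hk, ht', ← zpow_mul,
          ← zpow_neg, ← zpow_add₀ hne]
        congr 1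
        rw [hkdecomp]
        have : ((d : ℤ) * (k / (d : ℤ)) + r) / (d : ℤ) = k / (d : ℤ) := by
          rw [← hkdecomp]
        rw [this]
        ring
      have hrlt : r < d := by
        have : (r : ℤ) < d := by rw [← hr]; exact hrd
        exact_mod_cast this
      have hr_zero : r = 0 := by
        by_contra hne0
        exact hmin r hrlt ⟨Nat.pos_of_ne_zero hne0, _, hy0, hyv⟩
      refine ⟨k / (d : ℤ), ?_⟩
      rw [hk, ht', ← zpow_mul]
      congr 1
      rw [hr_zero] at hkdecomp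
      simpa using hkdecomp
    -- now the DVR
    have htW0 : t ≠ 0 := ht0
    have htlt : B.valuation (algebraMap K L t) < 1 := by
      rw [ht']
      exact (zpow_lt_one_iff_right_of_lt_one₀ hpos hϖ).mpr (by exact_mod_cast hd0')
    have htW : (B.comap (algebraMap K L)).valuation t < 1 := by
      refine lt_of_le_of_ne ((comap_val_le_one_iff_h889 B t).mpr htlt.le) ?_
      intro h1
      exact htlt.ne ((comap_val_eq_one_iff_h889 B t).mp h1)
    have htWpos : (B.comap (algebraMap K L)).valuation t ≠ 0 :=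
      (Valuation.ne_zero_iff _).mpr ht0
    refine isDiscreteValuationRing_of_val (B.comap (algebraMap K L)) htW0 htW ?_
    intro f hf
    obtain ⟨j, hj⟩ := key f hf
    refine ⟨j, ?_⟩
    have h1 : B.valuation (algebraMap K L (f * (t ^ j)⁻¹)) = 1 := by
      rw [map_mul, map_inv₀, map_zpow₀, map_mul, map_inv₀, map_zpow₀, hj]
      exact mul_inv_cancel₀ (zpow_ne_zero _ ((Valuation.ne_zero_iff _).mpr htL0))
    have h2 := (comap_val_eq_one_iff_h889 B (f * (t ^ j)⁻¹)).mpr h1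
    rw [map_mul, map_inv₀, map_zpow₀] at h2
    exact eq_of_mul_inv_eq_one h2 |>.trans rfl
  · left
    intro x hx
    have hxL0 : algebraMap K L x ≠ 0 := fun h => hx ((map_eq_zero (algebraMap K L)).mp h)
    obtain ⟨k, hk⟩ := hval _ hxL0
    rcases lt_trichotomy k 0 with hk0 | hk0 | hk0
    · exfalso
      apply hS
      refine ⟨(-k).toNat, by omega, x⁻¹, inv_ne_zero hx, ?_⟩
      rw [map_inv₀, map_inv₀, hk, ← zpow_neg]
      congr 1
      omega
    · rw [hk, hk0, zpow_zero]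
    · exfalso
      apply hS
      refine ⟨k.toNat, by omega, x, hx, ?_⟩
      rw [hk]
      congr 1
      omega

end Restrict

/-! ## HOR-DESC -/

section HorDesc

variable {E₁ L₁ E₂ K₂ L₂ : Type*} [Field E₁] [CharZero E₁] [Field L₁] [Algebra E₁ L₁]
  [Field E₂] [Field K₂] [Algebra E₂ K₂] [Field L₂] [Algebra K₂ L₂]
  [Algebra L₁ L₂] [Algebra E₁ L₂] [IsScalarTower E₁ L₁ L₂]

/-- **HOR-DESC.**  Horizontal `m`-divisibility of `f₂ ∈ K₂` over the constants `E₂` descends to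
`f' ∈ L₁` over the constants `E₁`, if `L₂ = L₁(constants)`, `E₂` is algebraic over `E₁` and
`f₂ = lc · f' · b ^ m` in `L₂`. -/
theorem horDesc (m : ℕ)
    (hgen : IntermediateField.adjoin L₁ {α : L₂ | IsAlgebraic E₁ α} = ⊤)
    (hE₂ : ∀ e : E₂, IsAlgebraic E₁ (algebraMap K₂ L₂ (algebraMap E₂ K₂ e)))
    (f₂ : K₂) (hdiv : DivisibleDiv E₂ m f₂)
    (f' : L₁) (lc : E₂) (hlc : lc ≠ 0) (b : L₂) (hb : b ≠ 0)
    (hf₂ : algebraMap K₂ L₂ f₂ =
      algebraMap K₂ L₂ (algebraMap E₂ K₂ lc) * algebraMap L₁ L₂ f' * b ^ m) :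
    DivisibleDiv E₁ m f' := by
  intro V hV hEV
  haveI := hV
  by_cases hf'0 : f' = 0
  · exact ⟨1, 0, one_ne_zero, V.zero_mem, by simp [V.zero_mem], by simp [hf'0]⟩
  obtain ⟨B, hcomap, hB, hconst, _, hval⟩ :=
    exists_dvr_extension (E := E₁) (K := L₁) (L := L₂) V hEV hgen
  have hmemV : ∀ y : L₁, B.valuation (algebraMap L₁ L₂ y) ≤ 1 → y ∈ V := by
    intro y hy
    have h1 : y ∈ B.comap (algebraMap L₁ L₂) := by
      rw [ValuationSubring.mem_comap]
      exact (B.valuation_le_one_iff _).mp hy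
    rw [hcomap] at h1
    exact h1
  have hmemB : ∀ y : L₁, y ∈ V → B.valuation (algebraMap L₁ L₂ y) ≤ 1 := by
    intro y hy
    have h1 : y ∈ B.comap (algebraMap L₁ L₂) := by
      rw [hcomap]
      exact hy
    exact (B.valuation_le_one_iff _).mpr (ValuationSubring.mem_comap.mp h1)
  obtain ⟨π, hπ⟩ := IsDiscreteValuationRing.exists_irreducible V
  set ϖ : L₂ := algebraMap L₁ L₂ (π : L₁) with hϖdef
  have hπ0 : (π : L₁) ≠ 0 := fun h => hπ.ne_zero (Subtype.ext h)
  have hϖ0 : ϖ ≠ 0 := fun h => hπ0 ((map_eq_zero (algebraMap L₁ L₂)).mp h)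
  have hvalπ : ∀ f : L₂, f ≠ 0 → ∃ k : ℤ, B.valuation f = B.valuation ϖ ^ k := hval π hπ
  have hpos : 0 < B.valuation ϖ := zero_lt_iff.mpr ((Valuation.ne_zero_iff _).mpr hϖ0)
  -- `ϖ` is a nonunit of `B`
  have hϖlt : B.valuation ϖ < 1 := by
    have hle : B.valuation ϖ ≤ 1 := hmemB _ π.2
    refine lt_of_le_of_ne hle ?_
    intro h1
    have hinvV : (π : L₁)⁻¹ ∈ V := by
      apply hmemV
      rw [map_inv₀, map_inv₀]
      show (B.valuation ϖ)⁻¹ ≤ 1
      rw [h1, inv_one]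
    apply hπ.not_isUnit
    refine isUnit_iff_exists_inv.mpr ⟨⟨_, hinvV⟩, Subtype.ext ?_⟩
    show (π : L₁) * (π : L₁)⁻¹ = 1
    exact mul_inv_cancel₀ hπ0
  -- the value of `f₂`
  have hlcL : B.valuation (algebraMap K₂ L₂ (algebraMap E₂ K₂ lc)) = 1 := by
    have hlc0 : algebraMap K₂ L₂ (algebraMap E₂ K₂ lc) ≠ 0 := by
      intro h
      apply hlc
      have h1 := (map_eq_zero (algebraMap K₂ L₂)).mp h
      exact (map_eq_zero (algebraMap E₂ K₂)).mp h1
    have h1 : algebraMap K₂ L₂ (algebraMap E₂ K₂ lc) ∈ B := hconst _ (hE₂ lc)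
    have h2 : (algebraMap K₂ L₂ (algebraMap E₂ K₂ lc))⁻¹ ∈ B := by
      have := hconst _ (hE₂ lc⁻¹)
      rwa [map_inv₀, map_inv₀] at this
    have h1' := (B.valuation_le_one_iff _).mpr h1
    have h2' := (B.valuation_le_one_iff _).mpr h2
    rw [map_inv₀, inv_le_one₀ (zero_lt_iff.mpr ((Valuation.ne_zero_iff _).mpr hlc0))] at h2'
    exact le_antisymm h1' h2'
  have hf₂val : ∃ k : ℤ, B.valuation (algebraMap K₂ L₂ f₂) = (B.valuation ϖ ^ k) ^ m := by
    rcases comap_trivial_or_dvr_h889 (K := K₂) B hϖ0 hϖlt hvalπ with htriv | hdvr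
    · refine ⟨0, ?_⟩
      have hf₂0 : f₂ ≠ 0 := by
        intro h
        rw [h, map_zero] at hf₂
        have : algebraMap K₂ L₂ (algebraMap E₂ K₂ lc) * algebraMap L₁ L₂ f' * b ^ m ≠ 0 := by
          refine mul_ne_zero (mul_ne_zero ?_ ?_) (pow_ne_zero _ hb)
          · intro h0
            rw [h0, map_zero] at hlcL
            exact zero_ne_one hlcL
          · exact fun h0 => hf'0 ((map_eq_zero (algebraMap L₁ L₂)).mp h0)
        exact this hf₂.symm
      rw [htriv f₂ hf₂0, zpow_zero, one_pow]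
    · have hE₂W : ∀ e : E₂, algebraMap E₂ K₂ e ∈ B.comap (algebraMap K₂ L₂) := by
        intro e
        rw [ValuationSubring.mem_comap]
        exact hconst _ (hE₂ e)
      obtain ⟨h, u, hh0, hu, hu', hfu⟩ := hdiv (B.comap (algebraMap K₂ L₂)) hdvr hE₂W
      have hhL0 : algebraMap K₂ L₂ h ≠ 0 := fun h0 => hh0 ((map_eq_zero (algebraMap K₂ L₂)).mp h0)
      obtain ⟨k, hk⟩ := hvalπ _ hhL0
      refine ⟨k, ?_⟩
      have hu1 : B.valuation (algebraMap K₂ L₂ u) = 1 := by
        by_cases hu0 : u = 0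
        · -- then `f₂ = 0`, impossible
          exfalso
          rw [hfu, hu0, zero_mul, map_zero] at hf₂
          have : algebraMap K₂ L₂ (algebraMap E₂ K₂ lc) * algebraMap L₁ L₂ f' * b ^ m ≠ 0 := by
            refine mul_ne_zero (mul_ne_zero ?_ ?_) (pow_ne_zero _ hb)
            · intro h0
              rw [h0, map_zero] at hlcL
              exact zero_ne_one hlcL
            · exact fun h0 => hf'0 ((map_eq_zero (algebraMap L₁ L₂)).mp h0)
          exact this hf₂.symm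
        have huL0 : algebraMap K₂ L₂ u ≠ 0 :=
          fun h0 => hu0 ((map_eq_zero (algebraMap K₂ L₂)).mp h0)
        have h1 : B.valuation (algebraMap K₂ L₂ u) ≤ 1 :=
          (B.valuation_le_one_iff _).mpr (ValuationSubring.mem_comap.mp hu)
        have h2 : B.valuation (algebraMap K₂ L₂ u⁻¹) ≤ 1 :=
          (B.valuation_le_one_iff _).mpr (ValuationSubring.mem_comap.mp hu')
        rw [map_inv₀, map_inv₀,
          inv_le_one₀ (zero_lt_iff.mpr ((Valuation.ne_zero_iff _).mpr huL0))] at h2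
        exact le_antisymm h1 h2
      rw [hfu, map_mul, map_mul, map_pow, map_pow, hu1, one_mul, hk]
  obtain ⟨k, hk⟩ := hf₂val
  obtain ⟨j, hj⟩ := hvalπ b hb
  -- the value of `f'`
  have hf'L0 : algebraMap L₁ L₂ f' ≠ 0 := fun h0 => hf'0 ((map_eq_zero (algebraMap L₁ L₂)).mp h0)
  have hf'val : B.valuation (algebraMap L₁ L₂ f') = (B.valuation ϖ ^ (k - j)) ^ m := by
    have h1 : B.valuation (algebraMap K₂ L₂ f₂) =
        B.valuation (algebraMap L₁ L₂ f') * (B.valuation ϖ ^ j) ^ m := by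
      rw [hf₂, map_mul, map_mul, map_pow, hlcL, one_mul, hj]
    rw [hk] at h1
    have hne : B.valuation ϖ ≠ 0 := hpos.ne'
    have hjne : (B.valuation ϖ ^ j) ^ m ≠ 0 := pow_ne_zero _ (zpow_ne_zero _ hne)
    have h2 : B.valuation (algebraMap L₁ L₂ f') = (B.valuation ϖ ^ k) ^ m * ((B.valuation ϖ ^ j) ^ m)⁻¹ := by
      rw [h1, mul_assoc, mul_inv_cancel₀ hjne, mul_one]
    rw [h2, zpow_sub₀ hne, div_eq_mul_inv, mul_pow, inv_pow]
  -- conclusion
  refine ⟨(π : L₁) ^ (k - j), f' * (((π : L₁) ^ (k - j)) ^ m)⁻¹, zpow_ne_zero _ hπ0, ?_, ?_, ?_⟩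
  · apply hmemV
    rw [map_mul, map_mul, map_inv₀, map_inv₀, map_pow, map_pow, map_zpow₀, map_zpow₀, hf'val]
    exact (mul_inv_cancel₀ (pow_ne_zero _ (zpow_ne_zero _ hpos.ne'))).le
  · apply hmemV
    rw [map_inv₀, map_inv₀, map_mul, map_mul, map_inv₀, map_inv₀, map_pow, map_pow, map_zpow₀,
      map_zpow₀, hf'val]
    rw [mul_inv_cancel₀ (pow_ne_zero _ (zpow_ne_zero _ hpos.ne')), inv_one]
  · rw [mul_assoc, inv_mul_cancel₀ (pow_ne_zero _ (zpow_ne_zero _ hπ0)), mul_one]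

end HorDesc

/-! ## The same without an `Algebra E₁ L₂` instance (the shape of `H704.CoreOut.WildFrame`)

"`α ∈ L₂` is algebraic over the constants `E₁` of `L₁`" is spelled out in polynomial form
(no definition, no instance `Algebra E₁ L₂`):
`∃ P : E₁[X], P ≠ 0 ∧ P.eval₂ ((algebraMap L₁ L₂).comp (algebraMap E₁ L₁)) α = 0`. -/

section Comp

variable {E₁ L₁ E₂ K₂ L₂ : Type*} [Field E₁] [CharZero E₁] [Field L₁] [Algebra E₁ L₁]
  [Field E₂] [Field K₂] [Algebra E₂ K₂] [Field L₂] [Algebra K₂ L₂] [Algebra L₁ L₂]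

/-- A root of `X ^ n - c`, `c` a constant, `n ≠ 0`, is algebraic over the constants. -/
theorem constAlg_of_pow_eq_h889 {n : ℕ} (hn : n ≠ 0) {u : L₂} {c : E₁}
    (hu : u ^ n = algebraMap L₁ L₂ (algebraMap E₁ L₁ c)) :
    ∃ P : Polynomial E₁, P ≠ 0 ∧
      Polynomial.eval₂ ((algebraMap L₁ L₂).comp (algebraMap E₁ L₁)) u P = 0 := by
  refine ⟨Polynomial.X ^ n - Polynomial.C c, Polynomial.X_pow_sub_C_ne_zero
    (Nat.pos_of_ne_zero hn) c, ?_⟩
  rw [Polynomial.eval₂_sub, Polynomial.eval₂_pow, Polynomial.eval₂_X, Polynomial.eval₂_C]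
  show u ^ n - algebraMap L₁ L₂ (algebraMap E₁ L₁ c) = 0
  rw [hu]
  exact sub_self _

/-- An element of `L₂` algebraic over `ℤ` is algebraic over the constants. -/
theorem constAlg_of_isAlgebraic_int_h889 {α : L₂} (hα : IsAlgebraic ℤ α) :
    ∃ P : Polynomial E₁, P ≠ 0 ∧
      Polynomial.eval₂ ((algebraMap L₁ L₂).comp (algebraMap E₁ L₁)) α P = 0 := by
  obtain ⟨P, hP0, hP⟩ := hα
  refine ⟨P.map (Int.castRingHom E₁), ?_, ?_⟩
  · intro h
    apply hP0
    exact (Polynomial.map_eq_zero_iff (RingHom.injective_int (Int.castRingHom E₁))).mp h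
  · rw [Polynomial.eval₂_map]
    have hφ : ((algebraMap L₁ L₂).comp (algebraMap E₁ L₁)).comp (Int.castRingHom E₁) =
        algebraMap ℤ L₂ := RingHom.ext_int _ _
    rw [hφ]
    exact hP

/-- The image under a ring homomorphism of an element algebraic over `ℤ` is algebraic over
`ℤ`. -/
theorem isAlgebraic_int_map_h889 {A B : Type*} [CommRing A] [CommRing B] (φ : A →+* B) {a : A}
    (ha : IsAlgebraic ℤ a) : IsAlgebraic ℤ (φ a) := by
  obtain ⟨P, hP0, hP⟩ := ha
  refine ⟨P, hP0, ?_⟩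
  have h1 : Polynomial.aeval (φ a) P = φ.toIntAlgHom (Polynomial.aeval a P) :=
    Polynomial.aeval_algHom_apply φ.toIntAlgHom a P
  rw [h1, hP, map_zero]

/-- **HOR-DESC, frame form.**  `L₂ = L₁(S)`, `S` a set of elements algebraic over the constants
`E₁` of `L₁`; the constants `E₂` of `K₂ ⊆ L₂` are algebraic over `E₁`; `f₂ ∈ K₂` horizontally
`m`-divisible and `f₂ = lc · f' · b ^ m` in `L₂`.  Then `f' ∈ L₁` is horizontally
`m`-divisible. -/
theorem horDesc_comp (m : ℕ) (S : Set L₂)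
    (hS : ∀ α ∈ S, ∃ P : Polynomial E₁, P ≠ 0 ∧
      Polynomial.eval₂ ((algebraMap L₁ L₂).comp (algebraMap E₁ L₁)) α P = 0)
    (hgen : IntermediateField.adjoin L₁ S = ⊤)
    (hE₂ : ∀ e : E₂, ∃ P : Polynomial E₁, P ≠ 0 ∧
      Polynomial.eval₂ ((algebraMap L₁ L₂).comp (algebraMap E₁ L₁))
        (algebraMap K₂ L₂ (algebraMap E₂ K₂ e)) P = 0)
    (f₂ : K₂) (hdiv : DivisibleDiv E₂ m f₂)
    (f' : L₁) (lc : E₂) (hlc : lc ≠ 0) (b : L₂) (hb : b ≠ 0)
    (hf₂ : algebraMap K₂ L₂ f₂ =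
      algebraMap K₂ L₂ (algebraMap E₂ K₂ lc) * algebraMap L₁ L₂ f' * b ^ m) :
    DivisibleDiv E₁ m f' := by
  letI : Algebra E₁ L₂ := ((algebraMap L₁ L₂).comp (algebraMap E₁ L₁)).toAlgebra
  haveI : IsScalarTower E₁ L₁ L₂ := IsScalarTower.of_algebraMap_eq (fun _ => rfl)
  have hconv : ∀ α : L₂, (∃ P : Polynomial E₁, P ≠ 0 ∧
      Polynomial.eval₂ ((algebraMap L₁ L₂).comp (algebraMap E₁ L₁)) α P = 0) →
      IsAlgebraic E₁ α := by
    rintro α ⟨P, hP0, hP⟩
    exact ⟨P, hP0, hP⟩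
  have hgen' : IntermediateField.adjoin L₁ {α : L₂ | IsAlgebraic E₁ α} = ⊤ := by
    rw [eq_top_iff, ← hgen]
    exact IntermediateField.adjoin.mono L₁ _ _ (fun α hα => hconv α (hS α hα))
  exact horDesc m hgen' (fun e => hconv _ (hE₂ e)) f₂ hdiv f' lc hlc b hb hf₂

/-- **HOR-DESC, Kummer form**: `L₂ = L₁(u)`, `u ^ n = c` a constant of `L₁`. -/
theorem horDesc_kummer (m : ℕ) {n : ℕ} (hn : n ≠ 0) (u : L₂) (c : E₁)
    (hu : u ^ n = algebraMap L₁ L₂ (algebraMap E₁ L₁ c))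
    (hgen : IntermediateField.adjoin L₁ ({u} : Set L₂) = ⊤)
    (hE₂ : ∀ e : E₂, ∃ P : Polynomial E₁, P ≠ 0 ∧
      Polynomial.eval₂ ((algebraMap L₁ L₂).comp (algebraMap E₁ L₁))
        (algebraMap K₂ L₂ (algebraMap E₂ K₂ e)) P = 0)
    (f₂ : K₂) (hdiv : DivisibleDiv E₂ m f₂)
    (f' : L₁) (lc : E₂) (hlc : lc ≠ 0) (b : L₂) (hb : b ≠ 0)
    (hf₂ : algebraMap K₂ L₂ f₂ =
      algebraMap K₂ L₂ (algebraMap E₂ K₂ lc) * algebraMap L₁ L₂ f' * b ^ m) :
    DivisibleDiv E₁ m f' :=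
  horDesc_comp m {u} (fun α hα => by
      rw [Set.mem_singleton_iff] at hα
      subst hα
      exact constAlg_of_pow_eq_h889 hn hu) hgen hE₂ f₂ hdiv f' lc hlc b hb hf₂

/-- **HOR-DESC, arithmetic form**: all constants in sight are algebraic numbers.
`L₂ = L₁(S)` with `S` algebraic over `ℤ`, and `E₂` algebraic over `ℤ` (e.g. `E₂ ⊆ ℚ̄`). -/
theorem horDesc_int (m : ℕ) (S : Set L₂) (hS : ∀ α ∈ S, IsAlgebraic ℤ α)
    (hgen : IntermediateField.adjoin L₁ S = ⊤)
    (hE₂ : ∀ e : E₂, IsAlgebraic ℤ e)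
    (f₂ : K₂) (hdiv : DivisibleDiv E₂ m f₂)
    (f' : L₁) (lc : E₂) (hlc : lc ≠ 0) (b : L₂) (hb : b ≠ 0)
    (hf₂ : algebraMap K₂ L₂ f₂ =
      algebraMap K₂ L₂ (algebraMap E₂ K₂ lc) * algebraMap L₁ L₂ f' * b ^ m) :
    DivisibleDiv E₁ m f' :=
  horDesc_comp m S (fun α hα => constAlg_of_isAlgebraic_int_h889 (hS α hα)) hgen
    (fun e => constAlg_of_isAlgebraic_int_h889
      (isAlgebraic_int_map_h889 ((algebraMap K₂ L₂).comp (algebraMap E₂ K₂)) (hE₂ e)))
    f₂ hdiv f' lc hlc b hb hf₂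

end Comp

end Fermat.Agent.Ribet.H889
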